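import Fermat.Agent.AndersonModel.Unbounded
import Fermat.Agent.FurstenbergKifer.Uniform

/-!
# The exponent is continuous in the energy

Weak limits of stationary measures are stationary, and the mean growth in one step is continuous
in the energy and the direction jointly.
-/

set_option autoImplicit false

noncomputable section

namespace FA.AndersonModel

open MeasureTheory Filter Topology Module Set Metric
open FA.FurstenbergLyapunov FA.FurstenbergKifer FA.GuivarchRaugi FA.LePage
open scoped BoundedContinuousFunction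

variable {ρ : Measure ℝ} [IsProbabilityMeasure ρ] {ε : ℝ}

/-- Integrals of a jointly continuous function against weakly convergent measures. -/
theorem tendsto_integral_joint {f : ℝ → Sph Plane → ℝ}
    (hf : Continuous fun p : ℝ × Sph Plane => f p.1 p.2) {e : ℕ → ℝ} {e₀ : ℝ}
    (he : Tendsto e atTop (𝓝 e₀)) {ν : ℕ → ProbabilityMeasure (Sph Plane)}
    {ν₀ : ProbabilityMeasure (Sph Plane)} (hν : Tendsto ν atTop (𝓝 ν₀)) :
    Tendsto (fun k => ∫ w, f (e k) w ∂(ν k : Measure (Sph Plane))) atTop
      (𝓝 (∫ w, f e₀ w ∂(ν₀ : Measure (Sph Plane)))) := by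
  set g : ℝ → Sph Plane →ᵇ ℝ := fun t => BoundedContinuousFunction.mkOfCompact
    ⟨f t, hf.comp (continuous_const.prodMk continuous_id)⟩
  have hu : TendstoUniformly f (f e₀) (𝓝 e₀) := Continuous.tendstoUniformly f hf e₀
  have h1 := ProbabilityMeasure.tendsto_iff_forall_integral_tendsto.1 hν (g e₀)
  rw [Metric.tendsto_nhds] at h1 ⊢
  intro δ hδ
  filter_upwards [h1 (δ / 2) (half_pos hδ),
    he.eventually (Metric.tendstoUniformly_iff.1 hu (δ / 3) (by positivity))] with k hk hk'
  rw [Real.dist_eq] at hk ⊢
  have h2 : |(∫ w, g (e k) w ∂(ν k : Measure (Sph Plane))) -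
      ∫ w, g e₀ w ∂(ν k : Measure (Sph Plane))| ≤ δ / 3 := by
    rw [← integral_sub ((g (e k)).integrable _) ((g e₀).integrable _), ← Real.norm_eq_abs]
    refine (norm_integral_le_of_norm_le_const (C := δ / 3) (.of_forall fun w => ?_)).trans_eq
      (by rw [probReal_univ, mul_one])
    rw [Real.norm_eq_abs, abs_sub_comm]
    exact (hk' w).le
  calc |(∫ w, f (e k) w ∂(ν k : Measure (Sph Plane))) - ∫ w, f e₀ w ∂(ν₀ : Measure (Sph Plane))|
      ≤ |(∫ w, g (e k) w ∂(ν k : Measure (Sph Plane))) -
          ∫ w, g e₀ w ∂(ν k : Measure (Sph Plane))| +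
        |(∫ w, g e₀ w ∂(ν k : Measure (Sph Plane))) -
          ∫ w, g e₀ w ∂(ν₀ : Measure (Sph Plane))| := abs_sub_le _ _ _
    _ < δ := by linarith

theorem continuous_avg_transfer {φ : Sph Plane → ℝ} (hφ : Continuous φ) {M : ℝ}
    (hM : ∀ w, ‖φ w‖ ≤ M) :
    Continuous fun p : ℝ × Sph Plane => ∫ v, φ (act (transfer p.1 v) p.2) ∂ρ := by
  refine continuous_of_dominated (fun p => (hφ.measurable.comp
    (measurable_act_pair (measurable_transfer p.1) measurable_const)).aestronglyMeasurable)
    (fun p => .of_forall fun v => hM _) (integrable_const M) (.of_forall fun v => ?_)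
  refine hφ.comp (continuous_iff_continuousAt.2 fun p => ?_)
  exact (continuousAt_dir (apply_ne_zero (transfer_mem_unitDet p.1 v) (sph_ne_zero p.2))).comp_of_eq
    ((continuous_transfer.comp (continuous_fst.prodMk continuous_const)).clm_apply
      (continuous_subtype_val.comp continuous_snd)).continuousAt rfl

/-- The mean growth in one step. -/
def stepGrowth (ρ : Measure ℝ) (e : ℝ) (w : Sph Plane) : ℝ :=
  ∫ v, Real.log ‖transfer e v (w : Plane)‖ ∂ρ

theorem continuous_stepGrowth (hε : 0 < ε) (hv : Integrable (fun v : ℝ => |v| ^ ε) ρ) :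
    Continuous fun p : ℝ × Sph Plane => stepGrowth ρ p.1 p.2 := by
  obtain ⟨C, hC0, hC⟩ := exists_abs_log_apply_le (E := Plane)
  refine continuous_iff_continuousAt.2 fun p₀ => ?_
  set d : ℝ := ((finrank ℝ Plane : ℕ) : ℝ) with hd
  refine continuousAt_of_dominated (bound := fun v =>
      C + d * (ε⁻¹ * (2 ^ ε * ((|p₀.1| + 3) ^ ε + |v| ^ ε))))
    (.of_forall fun p => (measurable_log_apply (measurable_transfer p.1)
      measurable_const).aestronglyMeasurable) ?_
    ((integrable_const C).add (((((integrable_const _).add hv).const_mul _).const_mul _).const_mul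
      _)) (.of_forall fun v => ?_)
  · filter_upwards [continuous_fst.continuousAt.preimage_mem_nhds
      (Metric.ball_mem_nhds p₀.1 one_pos)] with p hp
    refine .of_forall fun v => ?_
    have hA := transfer_mem_unitDet p.1 v
    refine (hC _ hA _ (norm_eq_of_mem_sphere p.2)).trans (add_le_add le_rfl
      (mul_le_mul_of_nonneg_left ?_ (Nat.cast_nonneg _)))
    have hp' : |p.1| ≤ |p₀.1| + 1 := by
      have h1 : |p.1 - p₀.1| < 1 := by simpa [Metric.mem_ball, Real.dist_eq] using hp
      linarith [abs_sub_abs_le_abs_sub p.1 p₀.1]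
    refine (Real.log_le_rpow_div (norm_nonneg _) hε).trans ?_
    rw [← inv_mul_eq_div]
    refine mul_le_mul_of_nonneg_left ?_ (inv_nonneg.2 hε.le)
    refine (Real.rpow_le_rpow (norm_nonneg _) ((norm_transfer_le p.1 v).trans
      (show |p.1| + |v| + 2 ≤ (|p₀.1| + 3) + |v| by linarith)) hε.le).trans ?_
    exact rpow_add_le_two_rpow (by positivity) (abs_nonneg v) hε.le
  · exact (((continuous_transfer.comp (continuous_fst.prodMk continuous_const)).clm_apply
      (continuous_subtype_val.comp continuous_snd)).norm.log fun p =>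
        norm_ne_zero_iff.2 (apply_ne_zero (transfer_mem_unitDet p.1 v)
          (sph_ne_zero p.2))).continuousAt

/-- **The exponent at every energy, continuous in the energy.** -/
theorem exists_exponent_fun (hρ : ∀ a, ρ ≠ Measure.dirac a) (hε : 0 < ε)
    (hv : Integrable (fun v : ℝ => |v| ^ ε) ρ) :
    ∃ γ : ℝ → ℝ, Continuous γ ∧ ∀ e, 0 < γ e ∧
      ∀ᵐ x ∂(Measure.infinitePi fun _ : ℕ => transferLaw ρ e),
        Tendsto (fun n : ℕ => Real.log ‖randProd n x‖ / n) atTop (𝓝 (γ e)) := by
  have hint : ∀ e, Integrable (fun A => Real.log ‖A‖) (transferLaw ρ e) := fun e =>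
    integrable_log_norm (transferLaw_ae ρ e) hε (transferLaw_expMoment hε.le hv)
  choose γ hγ0 hγ _ using fun e => exists_exponent (transferLaw ρ e) (transferLaw_ae ρ e)
    (transferLaw_unbounded hρ) (transferLaw_irreducible hρ) (hint e)
  refine ⟨γ, ?_, fun e => ⟨hγ0 e, hγ e⟩⟩
  have hformula : ∀ (e : ℝ) (ν : Measure (Sph Plane)) [IsProbabilityMeasure ν],
      stepLaw (transferLaw ρ e) ν = ν → γ e = ∫ w, stepGrowth ρ e w ∂ν := by
    intro e ν _ hν
    rw [← stationary_formula (transferLaw ρ e) (transferLaw_ae ρ e) (transferLaw_irreducible hρ)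
      (hint e) (hγ e) ν hν]
    refine integral_congr_ae (.of_forall fun w => ?_)
    exact integral_map (φ := transfer e) (f := fun A => Real.log ‖A (w : Plane)‖)
      (measurable_transfer e).aemeasurable
      (measurable_log_apply measurable_id measurable_const).aestronglyMeasurable
  choose ν hν using fun e => exists_stationary (transferLaw ρ e) (transferLaw_ae ρ e)
  refine continuous_iff_seqContinuous.2 fun e e₀ he => ?_
  refine tendsto_of_subseq_tendsto fun s hs => ?_
  obtain ⟨ν₀, -, t, ht, hlim⟩ :=
    (isCompact_univ (X := ProbabilityMeasure (Sph Plane))).tendsto_subseq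
    (x := fun k => ν (e (s k))) fun k => mem_univ _
  refine ⟨t, ?_⟩
  have het : Tendsto (fun k => e (s (t k))) atTop (𝓝 e₀) :=
    (he.comp hs).comp ht.tendsto_atTop
  have hν₀ : stepLaw (transferLaw ρ e₀) (ν₀ : Measure (Sph Plane)) = ν₀ := by
    have := isProbabilityMeasure_stepLaw (transferLaw ρ e₀) (ν₀ : Measure (Sph Plane))
    refine ext_of_forall_integral_eq_of_IsFiniteMeasure fun φ => ?_
    have hstep : ∀ e, stepOp (transferLaw_ae ρ e) φ =
        fun w => ∫ v, φ (act (transfer e v) w) ∂ρ := fun e => funext fun w => by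
      rw [stepOp_apply]
      exact integral_map (φ := transfer e) (f := fun A => φ (act A w))
        (measurable_transfer e).aemeasurable (φ.continuous.measurable.comp
          (measurable_act_pair measurable_id measurable_const)).aestronglyMeasurable
    rw [integral_stepLaw _ (transferLaw_ae ρ e₀) φ, hstep]
    refine tendsto_nhds_unique (tendsto_integral_joint
      (f := fun e w => ∫ v, φ (act (transfer e v) w) ∂ρ)
      (continuous_avg_transfer φ.continuous φ.norm_coe_le_norm) het hlim)
      ((ProbabilityMeasure.tendsto_iff_forall_integral_tendsto.1 hlim φ).congr fun k => ?_)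
    show ∫ w, φ w ∂(ν (e (s (t k))) : Measure (Sph Plane)) = _
    conv_lhs => rw [← hν (e (s (t k))), integral_stepLaw _ (transferLaw_ae ρ _) φ, hstep]
    rfl
  rw [hformula e₀ _ hν₀]
  exact (tendsto_integral_joint (continuous_stepGrowth hε hv) het hlim).congr fun k =>
    (hformula _ _ (hν _)).symm

end FA.AndersonModel
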