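import Fermat.Agent.AndersonModel.Continuity
import Fermat.Agent.FurstenbergKifer.Vector

/-!
# Solutions of the difference equation

The pair of two successive values of a solution is moved by the transfer matrices.
-/

set_option autoImplicit false

noncomputable section

namespace FA.AndersonModel

open MeasureTheory Filter Topology Module Set Metric
open FA.FurstenbergLyapunov FA.FurstenbergKifer FA.GuivarchRaugi FA.LePage

/-- The plane vector of two numbers. -/
def pairVec (x y : ℝ) : Plane :=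
  x • EuclideanSpace.single 0 (1 : ℝ) + y • EuclideanSpace.single 1 (1 : ℝ)

theorem pairVec_apply (x y : ℝ) : pairVec x y 0 = x ∧ pairVec x y 1 = y := by
  simp [pairVec]

theorem randProd_pairVec {e : ℝ} {v u : ℕ → ℝ}
    (hu : ∀ n, u (n + 2) + u n + v n * u (n + 1) = e * u (n + 1)) (n : ℕ) :
    randProd n (fun i => transfer e (v i)) (pairVec (u 1) (u 0)) = pairVec (u (n + 1)) (u n) := by
  induction n with
  | zero => simp [randProd, FA.Kingman.cocycleProd]
  | succ n ih =>
    rw [randProd_succ', mul_apply_eq_comp, ih]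
    obtain ⟨h0, h1⟩ := transfer_apply e (v n) (pairVec (u (n + 1)) (u n))
    obtain ⟨p0, p1⟩ := pairVec_apply (u (n + 1)) (u n)
    obtain ⟨q0, q1⟩ := pairVec_apply (u (n + 1 + 1)) (u (n + 1))
    rw [p0, p1] at h0
    rw [p0] at h1
    ext i
    fin_cases i
    · show transfer e (v n) _ 0 = _
      rw [h0]
      show _ = pairVec (u (n + 1 + 1)) (u (n + 1)) 0
      rw [q0]
      linarith [hu n]
    · show transfer e (v n) _ 1 = _
      rw [h1]
      show _ = pairVec (u (n + 1 + 1)) (u (n + 1)) 1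
      rw [q1]

/-- Exponential growth of the pairs: the rate is that of the vector. -/
theorem tendsto_log_abs_add {x : ℕ → Plane} {γ : ℝ} (hx : ∀ n, x n ≠ 0)
    (h : Tendsto (fun n : ℕ => Real.log ‖x n‖ / n) atTop (𝓝 γ)) :
    Tendsto (fun n : ℕ => Real.log (|x n 0| + |x n 1|) / n) atTop (𝓝 γ) := by
  have h2 : Tendsto (fun n : ℕ => Real.log ‖x n‖ / n + Real.log 2 / n) atTop (𝓝 γ) := by
    simpa using h.add (tendsto_const_nhds.div_atTop tendsto_natCast_atTop_atTop)
  refine tendsto_of_tendsto_of_tendsto_of_le_of_le h h2 (fun n => ?_) fun n => ?_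
  · exact div_le_div_of_nonneg_right
      (Real.log_le_log (norm_pos_iff.2 (hx n)) (norm_le_abs_add _)) n.cast_nonneg
  · show _ ≤ Real.log ‖x n‖ / n + Real.log 2 / n
    rw [← add_div, ← Real.log_mul (norm_ne_zero_iff.2 (hx n)) two_ne_zero]
    exact div_le_div_of_nonneg_right (Real.log_le_log
      ((norm_pos_iff.2 (hx n)).trans_le (norm_le_abs_add _))
      (by linarith [abs_le_norm (x n) 0, abs_le_norm (x n) 1])) n.cast_nonneg

/-- A sequence whose pairs grow at a positive rate is unbounded and not square summable. -/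
theorem not_bounded_of_rate {u : ℕ → ℝ} {γ : ℝ} (hγ : 0 < γ)
    (h : Tendsto (fun n : ℕ => Real.log (|u n| + |u (n + 1)|) / n) atTop (𝓝 γ)) :
    (¬ ∃ B : ℝ, ∀ n, |u n| ≤ B) ∧ ¬ Summable fun n => u n ^ 2 := by
  have hb : ¬ ∃ B : ℝ, ∀ n, |u n| ≤ B := by
    rintro ⟨B, hB⟩
    obtain ⟨n, hn1, hn2⟩ := ((h.eventually_const_lt (half_lt_self hγ)).and
      (tendsto_natCast_atTop_atTop.eventually_ge_atTop
        (2 * |Real.log (2 * B + 1)| / γ + 1))).exists
    have hn : (0 : ℝ) < n := lt_of_lt_of_le (by positivity) hn2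
    rw [lt_div_iff₀ hn] at hn1
    have hB0 : 0 ≤ B := (abs_nonneg _).trans (hB 0)
    have h1 : Real.log (|u n| + |u (n + 1)|) ≤ |Real.log (2 * B + 1)| := by
      rcases (add_nonneg (abs_nonneg (u n)) (abs_nonneg (u (n + 1)))).eq_or_lt with h0 | h0
      · rw [← h0, Real.log_zero]; exact abs_nonneg _
      · exact (Real.log_le_log h0 (by linarith [hB n, hB (n + 1)])).trans (le_abs_self _)
    have h2 : 2 * |Real.log (2 * B + 1)| < γ * n := by
      rw [← div_lt_iff₀' hγ]
      linarith
    linarith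
  refine ⟨hb, fun hs => hb ?_⟩
  obtain ⟨B, hB⟩ := hs.tendsto_atTop_zero.bddAbove_range
  exact ⟨B + 1, fun n => by
    have h1 := hB ⟨n, rfl⟩
    nlinarith [sq_abs (u n), sq_nonneg (|u n| - 1), abs_nonneg (u n)]⟩

end FA.AndersonModel
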