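import Fermat.Agent.GuivarchRaugi.Plane
import Mathlib.Analysis.SpecialFunctions.Pow.Continuity

/-!
# Transfer matrices

The transfer matrices of two different potentials differ by a shear, on either side, and a bounded
semigroup of operators of determinant `±1` contains the inverses in its closure; hence their laws
are strongly irreducible and unbounded at every energy.
-/

set_option autoImplicit false

noncomputable section

namespace FA.AndersonModel

open MeasureTheory Filter Topology Module Set Metric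
open FA.FurstenbergLyapunov FA.GuivarchRaugi

/-- The transfer matrix at energy `e` of the potential `v`. -/
def transfer (e v : ℝ) : Plane →L[ℝ] Plane := opOf !![e - v, -1; 1, 0]

theorem transfer_apply (e v : ℝ) (w : Plane) :
    transfer e v w 0 = (e - v) * w 0 - w 1 ∧ transfer e v w 1 = w 0 := by
  simp [transfer, opOf_apply, sub_eq_add_neg]

theorem transfer_mem_unitDet (e v : ℝ) : transfer e v ∈ unitDet Plane :=
  opOf_mem_unitDet (by simp [Matrix.det_fin_two_of])

theorem norm_le_abs_add (w : Plane) : ‖w‖ ≤ |w 0| + |w 1| := by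
  have hw : w = w 0 • EuclideanSpace.single 0 (1 : ℝ) + w 1 • EuclideanSpace.single 1 (1 : ℝ) := by
    ext i
    fin_cases i <;> simp
  conv_lhs => rw [hw]
  exact (norm_add_le _ _).trans (by simp [norm_smul])

theorem abs_le_norm (w : Plane) (i : Fin 2) : |w i| ≤ ‖w‖ := PiLp.norm_apply_le w i

theorem norm_transfer_le (e v : ℝ) : ‖transfer e v‖ ≤ |e| + |v| + 2 := by
  refine ContinuousLinearMap.opNorm_le_bound _ (by positivity) fun w => ?_
  obtain ⟨h0, h1⟩ := transfer_apply e v w
  refine (norm_le_abs_add _).trans ?_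
  rw [h0, h1]
  have a1 : |(e - v) * w 0 - w 1| ≤ (|e| + |v|) * ‖w‖ + ‖w‖ := by
    refine (abs_sub _ _).trans (add_le_add ?_ (abs_le_norm w 1))
    rw [abs_mul]
    exact mul_le_mul (abs_sub e v) (abs_le_norm w 0) (abs_nonneg _) (by positivity)
  linarith [abs_le_norm w 0]

theorem continuous_transfer : Continuous fun p : ℝ × ℝ => transfer p.1 p.2 := by
  refine continuous_clm_apply.2 fun w => ?_
  have h : ∀ p : ℝ × ℝ, transfer p.1 p.2 w =
      ((p.1 - p.2) * w 0 - w 1) • EuclideanSpace.single 0 (1 : ℝ) +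
        w 0 • EuclideanSpace.single 1 (1 : ℝ) := fun p => by
    obtain ⟨h0, h1⟩ := transfer_apply p.1 p.2 w
    ext i
    fin_cases i <;> simp [h0, h1]
  simp only [h]
  exact ((((continuous_fst.sub continuous_snd).mul continuous_const).sub continuous_const).smul
    continuous_const).add continuous_const

theorem measurable_transfer (e : ℝ) : Measurable (transfer e) :=
  (continuous_transfer.comp (continuous_const.prodMk continuous_id)).measurable

variable (ρ : Measure ℝ) (e : ℝ)

/-- The law of the transfer matrix. -/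
def transferLaw : Measure (Plane →L[ℝ] Plane) := ρ.map (transfer e)

instance [IsProbabilityMeasure ρ] : IsProbabilityMeasure (transferLaw ρ e) :=
  Measure.isProbabilityMeasure_map (measurable_transfer e).aemeasurable

theorem transferLaw_ae : ∀ᵐ A ∂(transferLaw ρ e), A ∈ unitDet Plane :=
  (ae_map_iff (measurable_transfer e).aemeasurable isClosed_unitDet.measurableSet).2
    (.of_forall fun v => transfer_mem_unitDet e v)

variable {ρ e}

theorem transfer_mem_support {a : ℝ} (ha : a ∈ ρ.support) :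
    transfer e a ∈ (transferLaw ρ e).support := by
  rw [Measure.mem_support_iff_forall] at ha ⊢
  exact fun U hU => (ha _ ((continuous_transfer.comp
    (continuous_const.prodMk continuous_id)).continuousAt.preimage_mem_nhds hU)).trans_le
    (Measure.le_map_apply (measurable_transfer e).aemeasurable U)

/-- A law which is not a point mass has two different support points. -/
theorem exists_ne_mem_support [IsProbabilityMeasure ρ] (hρ : ∀ a, ρ ≠ Measure.dirac a) :
    ∃ a ∈ ρ.support, ∃ b ∈ ρ.support, a ≠ b := by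
  obtain ⟨a, ha⟩ := Measure.nonempty_support (IsProbabilityMeasure.ne_zero ρ)
  by_contra h
  push Not at h
  refine hρ a ?_
  have hae : (id : ℝ → ℝ) =ᵐ[ρ] fun _ => a := by
    filter_upwards [Measure.support_mem_ae (μ := ρ)] with b hb
    exact (h a ha b hb).symm
  rw [← Measure.map_id (μ := ρ), Measure.map_congr hae, Measure.map_const, measure_univ, one_smul]

/-! ### Shears -/

/-- An upper shear. -/
def upperShift (t : ℝ) : Plane →L[ℝ] Plane := opOf !![1, t; 0, 1]

/-- A lower shear. -/
def lowerShift (t : ℝ) : Plane →L[ℝ] Plane := opOf !![1, 0; t, 1]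

theorem upperShift_pow_apply (t : ℝ) (m : ℕ) (v : Plane) :
    (upperShift t ^ m) v 0 = v 0 + m * t * v 1 ∧ (upperShift t ^ m) v 1 = v 1 := by
  have h : (!![1, t; 0, 1] : Matrix (Fin 2) (Fin 2) ℝ) ^ m = !![1, (m : ℝ) * t; 0, 1] := by
    induction m with
    | zero => simp [Matrix.one_fin_two]
    | succ m ih => rw [pow_succ, ih]; simp [add_mul, add_comm]
  rw [upperShift, opOf_pow, h]
  simp [opOf_apply]

theorem lowerShift_pow_apply (t : ℝ) (m : ℕ) (v : Plane) :
    (lowerShift t ^ m) v 0 = v 0 ∧ (lowerShift t ^ m) v 1 = m * t * v 0 + v 1 := by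
  have h : (!![1, 0; t, 1] : Matrix (Fin 2) (Fin 2) ℝ) ^ m = !![1, 0; (m : ℝ) * t, 1] := by
    induction m with
    | zero => simp [Matrix.one_fin_two]
    | succ m ih => rw [pow_succ, ih]; simp [add_mul]
  rw [lowerShift, opOf_pow, h]
  simp [opOf_apply]

theorem transfer_eq_upper (e a b : ℝ) :
    transfer e a = upperShift (b - a) * transfer e b := by
  refine ContinuousLinearMap.ext fun w => ?_
  obtain ⟨h0, h1⟩ := transfer_apply e a w
  obtain ⟨g0, g1⟩ := transfer_apply e b w
  obtain ⟨u0, u1⟩ := upperShift_pow_apply (b - a) 1 (transfer e b w)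
  rw [pow_one] at u0 u1
  ext i
  fin_cases i <;> simp [h0, h1, u0, u1, g0, g1]
  ring

theorem transfer_eq_lower (e a b : ℝ) :
    transfer e a = transfer e b * lowerShift (a - b) := by
  refine ContinuousLinearMap.ext fun w => ?_
  obtain ⟨h0, h1⟩ := transfer_apply e a w
  obtain ⟨g0, g1⟩ := transfer_apply e b (lowerShift (a - b) w)
  obtain ⟨u0, u1⟩ := lowerShift_pow_apply (a - b) 1 w
  rw [pow_one] at u0 u1
  ext i
  fin_cases i <;> simp [h0, h1, u0, u1, g0, g1]
  ring

/-- An injective operator keeping a finite family fixes a member along a power. -/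
theorem exists_pow_mem {F : Finset (Submodule ℝ Plane)} {A : Plane →L[ℝ] Plane}
    (hA : ∀ v, A v = 0 → v = 0) (hF : ∀ W ∈ F, W.map (A : Plane →ₗ[ℝ] Plane) ∈ F)
    {W : Submodule ℝ Plane} (hW : W ∈ F) : ∃ j : ℕ, 0 < j ∧ ∀ v ∈ W, (A ^ j) v ∈ W := by
  have hit : ∀ m, W.map ((A ^ m : Plane →L[ℝ] Plane) : Plane →ₗ[ℝ] Plane) ∈ F := by
    intro m
    induction m with
    | zero =>
      rw [pow_zero, ContinuousLinearMap.toLinearMap_one, Module.End.one_eq_id, Submodule.map_id]
      exact hW
    | succ m ih =>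
      have h := hF _ ih
      rwa [← Submodule.map_comp, show (A : Plane →ₗ[ℝ] Plane) ∘ₗ
        ((A ^ m : Plane →L[ℝ] Plane) : Plane →ₗ[ℝ] Plane) =
        ((A ^ (m + 1) : Plane →L[ℝ] Plane) : Plane →ₗ[ℝ] Plane) by rw [pow_succ']; rfl] at h
  obtain ⟨a, ha, b, hb, hne, he⟩ := Finset.exists_ne_map_eq_of_card_lt_of_maps_to
    (s := Finset.range (F.card + 1)) (t := F) (by simp) (fun m _ => hit m)
  wlog hab : a < b generalizing a b
  · exact this b hb a ha hne.symm he.symm (lt_of_le_of_ne (not_lt.1 hab) hne.symm)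
  refine ⟨b - a, Nat.sub_pos_of_lt hab, fun v hv => ?_⟩
  have hinj : ∀ (m : ℕ) (u u' : Plane), (A ^ m) u = (A ^ m) u' → u = u' := fun m => by
    induction m with
    | zero => intro u u' h; simpa using h
    | succ m ih =>
      intro u u' h
      rw [pow_succ', mul_apply_eq_comp, mul_apply_eq_comp] at h
      refine ih u u' (sub_eq_zero.1 (hA _ ?_))
      rw [map_sub, h, sub_self]
  obtain ⟨u, hu, hue⟩ : (A ^ b) v ∈ W.map ((A ^ a : Plane →L[ℝ] Plane) : Plane →ₗ[ℝ] Plane) :=
    he ▸ Submodule.mem_map_of_mem hv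
  rw [← Nat.add_sub_cancel' hab.le, pow_add, mul_apply_eq_comp] at hue
  exact hinj a _ _ hue ▸ hu

theorem upperShift_eq_zero (t : ℝ) {v : Plane} (h : upperShift t v = 0) : v = 0 := by
  obtain ⟨u0, u1⟩ := upperShift_pow_apply t 1 v
  rw [pow_one, h] at u0 u1
  simp at u0 u1
  ext i
  fin_cases i
  · simpa [← u1] using u0.symm
  · simpa using u1.symm

theorem lowerShift_eq_zero (t : ℝ) {v : Plane} (h : lowerShift t v = 0) : v = 0 := by
  obtain ⟨u0, u1⟩ := lowerShift_pow_apply t 1 v
  rw [pow_one, h] at u0 u1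
  simp at u0 u1
  ext i
  fin_cases i
  · simpa using u0.symm
  · simpa [← u0] using u1.symm

/-- **Strong irreducibility at every energy.** -/
theorem transferLaw_irreducible [IsProbabilityMeasure ρ] (hρ : ∀ a, ρ ≠ Measure.dirac a) :
    StronglyIrreducible (transferLaw ρ e).support := by
  classical
  obtain ⟨a, ha, b, hb, hab⟩ := exists_ne_mem_support hρ
  rintro ⟨F, ⟨W, hW⟩, hFp, hFi⟩
  set T := transfer e b
  have hTinj : Function.Injective (T : Plane →ₗ[ℝ] Plane) :=
    injective_of_unitDet (transfer_mem_unitDet e b)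
  set σ : F → F := fun V => ⟨V.1.map (T : Plane →ₗ[ℝ] Plane),
    hFi _ (transfer_mem_support hb) V.1 V.2⟩
  have hσ : Function.Injective σ := fun V V' h =>
    Subtype.ext (Submodule.map_injective_of_injective hTinj (congrArg Subtype.val h))
  have hsurj : ∀ V ∈ F, ∃ V' ∈ F, V'.map (T : Plane →ₗ[ℝ] Plane) = V := fun V hV => by
    obtain ⟨V', hV'⟩ := (Finite.injective_iff_surjective.1 hσ) ⟨V, hV⟩
    exact ⟨V'.1, V'.2, congrArg Subtype.val hV'⟩
  have hU : ∀ V ∈ F, V.map (upperShift (b - a) : Plane →ₗ[ℝ] Plane) ∈ F := fun V hV => by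
    obtain ⟨V', hV', rfl⟩ := hsurj V hV
    have h := hFi _ (transfer_mem_support (e := e) ha) V' hV'
    rwa [transfer_eq_upper e a b, show ((upperShift (b - a) * T : Plane →L[ℝ] Plane) :
      Plane →ₗ[ℝ] Plane) = (upperShift (b - a) : Plane →ₗ[ℝ] Plane) ∘ₗ (T : Plane →ₗ[ℝ] Plane)
      from rfl, Submodule.map_comp] at h
  have hL : ∀ V ∈ F, V.map (lowerShift (a - b) : Plane →ₗ[ℝ] Plane) ∈ F := fun V hV => by
    have h := hFi _ (transfer_mem_support (e := e) ha) V hV
    rw [transfer_eq_lower e a b, show ((T * lowerShift (a - b) : Plane →L[ℝ] Plane) :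
      Plane →ₗ[ℝ] Plane) = (T : Plane →ₗ[ℝ] Plane) ∘ₗ (lowerShift (a - b) : Plane →ₗ[ℝ] Plane)
      from rfl, Submodule.map_comp] at h
    obtain ⟨V', hV', he⟩ := hsurj _ h
    exact Submodule.map_injective_of_injective hTinj he ▸ hV'
  obtain ⟨i, hi, hUi⟩ := exists_pow_mem (fun v => upperShift_eq_zero (b - a)) hU hW
  obtain ⟨j, hj, hLj⟩ := exists_pow_mem (fun v => lowerShift_eq_zero (a - b)) hL hW
  have h10 : ∀ v ∈ W, v 1 ≠ 0 → EuclideanSpace.single 0 1 ∈ W := fun v hv h => by
    have h1 : ((i : ℝ) * (b - a) * v 1)⁻¹ • ((upperShift (b - a) ^ i) v - v) ∈ W :=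
      W.smul_mem _ (W.sub_mem (hUi v hv) hv)
    obtain ⟨p0, p1⟩ := upperShift_pow_apply (b - a) i v
    generalize (upperShift (b - a) ^ i) v = w at h1 p0 p1
    convert h1 using 1
    ext k
    have hne : (i : ℝ) * (b - a) * v 1 ≠ 0 :=
      mul_ne_zero (mul_ne_zero (Nat.cast_ne_zero.2 hi.ne') (sub_ne_zero.2 hab.symm)) h
    fin_cases k
    · simp only [Fin.zero_eta, Fin.isValue, PiLp.smul_apply, PiLp.sub_apply, smul_eq_mul, p0,
        add_sub_cancel_left, inv_mul_cancel₀ hne]
      simp
    · simp [p1]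
  have h01 : ∀ v ∈ W, v 0 ≠ 0 → EuclideanSpace.single 1 1 ∈ W := fun v hv h => by
    have h1 : ((j : ℝ) * (a - b) * v 0)⁻¹ • ((lowerShift (a - b) ^ j) v - v) ∈ W :=
      W.smul_mem _ (W.sub_mem (hLj v hv) hv)
    obtain ⟨p0, p1⟩ := lowerShift_pow_apply (a - b) j v
    generalize (lowerShift (a - b) ^ j) v = w at h1 p0 p1
    convert h1 using 1
    ext k
    have hne : (j : ℝ) * (a - b) * v 0 ≠ 0 :=
      mul_ne_zero (mul_ne_zero (Nat.cast_ne_zero.2 hj.ne') (sub_ne_zero.2 hab)) h
    fin_cases k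
    · simp [p0]
    · simp only [Fin.mk_one, Fin.isValue, PiLp.smul_apply, PiLp.sub_apply, smul_eq_mul, p1,
        add_sub_cancel_right, inv_mul_cancel₀ hne]
      simp
  obtain ⟨v, hv, hv0⟩ := (Submodule.ne_bot_iff _).1 (hFp W hW).1
  obtain ⟨e0, e1⟩ : EuclideanSpace.single 0 1 ∈ W ∧ EuclideanSpace.single 1 1 ∈ W := by
    by_cases h : v 1 = 0
    · have h0 : v 0 ≠ 0 := fun h0 => hv0 (by ext k; fin_cases k <;> simp [h, h0])
      have := h01 v hv h0
      exact ⟨h10 _ this (by simp), this⟩
    · have := h10 v hv h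
      exact ⟨this, h01 _ this (by simp)⟩
  refine (hFp W hW).2 (eq_top_iff.2 fun x _ => ?_)
  rw [show x = x 0 • EuclideanSpace.single 0 (1 : ℝ) + x 1 • EuclideanSpace.single 1 (1 : ℝ) by
    ext k; fin_cases k <;> simp]
  exact W.add_mem (W.smul_mem _ e0) (W.smul_mem _ e1)

end FA.AndersonModel
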