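import Fermat.Agent.AndersonModel.Transfer
import Fermat.Agent.LePage.Moments

/-!
# The transfer matrices are unbounded

A bounded semigroup of operators of determinant `±1` has the inverses in its closure, so it would
contain a shear and all its powers.  A transfer matrix of trace at most `2` in absolute value has
powers growing at most linearly.
-/

set_option autoImplicit false

noncomputable section

namespace FA.AndersonModel

open MeasureTheory Filter Topology Module Set Metric
open FA.FurstenbergLyapunov FA.GuivarchRaugi FA.LePage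

variable {ρ : Measure ℝ} {e ε : ℝ}

/-- **The transfer matrices generate an unbounded semigroup.** -/
theorem transferLaw_unbounded [IsProbabilityMeasure ρ] (hρ : ∀ a, ρ ≠ Measure.dirac a) :
    FA.FurstenbergLyapunov.Unbounded (transferLaw ρ e).support := by
  obtain ⟨a, ha, b, hb, hab⟩ := exists_ne_mem_support hρ
  intro M
  by_contra hcon
  push Not at hcon
  set G := Submonoid.closure (transferLaw ρ e).support
  set S : Set (Plane →L[ℝ] Plane) := _root_.closure (G : Set (Plane →L[ℝ] Plane))
  have hbd : ∀ A ∈ S, ‖A‖ ≤ M := fun A hA =>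
    closure_minimal (fun B hB => hcon B hB) (isClosed_le continuous_norm continuous_const) hA
  have hdet : ∀ A ∈ S, A ∈ unitDet Plane := fun A hA =>
    closure_minimal (fun B hB => Submonoid.closure_induction
      (motive := fun C _ => C ∈ unitDet Plane)
      (fun C hC => Measure.support_subset_of_isClosed isClosed_unitDet (transferLaw_ae ρ e) hC)
      one_mem_unitDet (fun _ _ _ _ h1 h2 => mul_mem_unitDet h1 h2) hB) isClosed_unitDet hA
  have hmul : ∀ A ∈ S, ∀ B ∈ S, A * B ∈ S := fun A hA B hB =>
    map_mem_closure₂ continuous_mul hA hB fun x hx y hy => mul_mem hx hy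
  set T := transfer e b
  have hTmem : ∀ m, T ^ m ∈ G := fun m =>
    pow_mem (Submonoid.subset_closure (transfer_mem_support hb)) m
  -- an inverse in the closure
  obtain ⟨R, hRS, hTR⟩ : ∃ R ∈ S, T * R = 1 := by
    obtain ⟨P, hP, φ, hφ, hlim⟩ := (isCompact_closedBall (0 : Plane →L[ℝ] Plane) M).tendsto_subseq
      (x := fun m => T ^ m) fun m => mem_closedBall_zero_iff.2 (hbd _ (subset_closure (hTmem m)))
    have hPS : P ∈ S := mem_closure_of_tendsto hlim (.of_forall fun k => hTmem _)
    obtain ⟨R, hR, ψ, hψ, hlim'⟩ := (isCompact_closedBall (0 : Plane →L[ℝ] Plane) M).tendsto_subseq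
      (x := fun k => T ^ (φ (k + 1) - φ k - 1)) fun m =>
        mem_closedBall_zero_iff.2 (hbd _ (subset_closure (hTmem _)))
    refine ⟨R, mem_closure_of_tendsto hlim' (.of_forall fun k => hTmem _), ?_⟩
    have h1 : Tendsto (fun k => T ^ φ (ψ k) * (T * T ^ (φ (ψ k + 1) - φ (ψ k) - 1))) atTop
        (𝓝 (P * (T * R))) :=
      (hlim.comp hψ.tendsto_atTop).mul (tendsto_const_nhds.mul hlim')
    have h2 : Tendsto (fun k => T ^ φ (ψ k) * (T * T ^ (φ (ψ k + 1) - φ (ψ k) - 1))) atTop
        (𝓝 P) := by
      refine ((hlim.comp (tendsto_add_atTop_nat 1)).comp hψ.tendsto_atTop).congr fun k => ?_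
      show T ^ φ (ψ k + 1) = _
      rw [← pow_succ', ← pow_add]
      congr 1
      have : φ (ψ k) < φ (ψ k + 1) := hφ (Nat.lt_succ_self (ψ k))
      omega
    have h3 := tendsto_nhds_unique h1 h2
    refine ContinuousLinearMap.ext fun w => injective_of_unitDet (hdet P hPS) ?_
    rw [one_apply_eq_self, ← mul_apply_eq_comp, h3]
  -- the shear and its powers
  have hU : upperShift (b - a) ∈ S := by
    have h : upperShift (b - a) = transfer e a * R := by
      rw [transfer_eq_upper e a b, mul_assoc, hTR, mul_one]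
    rw [h]
    exact hmul _ (subset_closure (Submonoid.subset_closure (transfer_mem_support ha))) _ hRS
  have hUm : ∀ m, upperShift (b - a) ^ m ∈ S := fun m => by
    induction m with
    | zero => exact subset_closure (one_mem G)
    | succ m ih => rw [pow_succ]; exact hmul _ ih _ hU
  obtain ⟨m, hm⟩ := exists_nat_gt (M / |b - a|)
  rw [div_lt_iff₀ (abs_pos.2 (sub_ne_zero.2 hab.symm))] at hm
  set u : Plane := EuclideanSpace.single 1 1
  have h1 := (upperShift (b - a) ^ m).le_opNorm u
  have h2 := abs_le_norm ((upperShift (b - a) ^ m) u) 0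
  rw [(upperShift_pow_apply (b - a) m u).1] at h2
  rw [show ‖u‖ = 1 by simp [u], mul_one] at h1
  have h3 : |(m : ℝ) * (b - a)| ≤ ‖(upperShift (b - a) ^ m) u‖ := by simpa [u] using h2
  rw [abs_mul, Nat.abs_cast] at h3
  linarith [hbd _ (hUm m)]

theorem transferLaw_proximal [IsProbabilityMeasure ρ] (hρ : ∀ a, ρ ≠ Measure.dirac a) :
    Proximal (transferLaw ρ e).support :=
  proximal_of_finrank_two finrank_euclideanSpace_fin
    (Measure.support_subset_of_isClosed isClosed_unitDet (transferLaw_ae ρ e))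
    (transferLaw_unbounded hρ)

theorem rpow_add_le_two_rpow {x y p : ℝ} (hx : 0 ≤ x) (hy : 0 ≤ y) (hp : 0 ≤ p) :
    (x + y) ^ p ≤ 2 ^ p * (x ^ p + y ^ p) := by
  refine (Real.rpow_le_rpow (by positivity) (show x + y ≤ 2 * max x y by
    linarith [le_max_left x y, le_max_right x y]) hp).trans ?_
  rw [Real.mul_rpow zero_le_two (hx.trans (le_max_left _ _))]
  refine mul_le_mul_of_nonneg_left ?_ (by positivity)
  rcases max_choice x y with h | h <;> rw [h]
  · linarith [Real.rpow_nonneg hy p]
  · linarith [Real.rpow_nonneg hx p]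

theorem transferLaw_expMoment [IsProbabilityMeasure ρ] (hε : 0 ≤ ε)
    (hv : Integrable (fun v : ℝ => |v| ^ ε) ρ) : ExpMoment (transferLaw ρ e) ε := by
  refine (integrable_map_measure (measurable_norm_rpow ε).aestronglyMeasurable
    (measurable_transfer e).aemeasurable).2 ?_
  refine (((integrable_const ((|e| + 2) ^ ε)).add hv).const_mul (2 ^ ε)).mono'
    ((measurable_norm_rpow ε).comp (measurable_transfer e)).aestronglyMeasurable
    (.of_forall fun v => ?_)
  show ‖‖transfer e v‖ ^ ε‖ ≤ _
  rw [Real.norm_of_nonneg (Real.rpow_nonneg (norm_nonneg _) _)]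
  refine (Real.rpow_le_rpow (norm_nonneg _) ((norm_transfer_le e v).trans_eq
    (show |e| + |v| + 2 = (|e| + 2) + |v| by ring)) hε).trans ?_
  exact rpow_add_le_two_rpow (by positivity) (abs_nonneg v) hε

/-- **Linear growth at trace at most two.** -/
theorem norm_transfer_pow_le {v : ℝ} (h : |e - v| ≤ 2) (k : ℕ) :
    ‖transfer e v ^ k‖ ≤ 4 * k + 4 := by
  refine ContinuousLinearMap.opNorm_le_bound _ (by positivity) fun w => ?_
  set x := e - v
  set a : ℕ → ℝ := fun n => (transfer e v ^ n) w 0
  set b : ℕ → ℝ := fun n => (transfer e v ^ n) w 1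
  have hstep : ∀ n, a (n + 1) = x * a n - b n ∧ b (n + 1) = a n := fun n => by
    simp only [a, b, pow_succ', mul_apply_eq_comp]
    exact transfer_apply e v _
  set q : ℕ → ℝ := fun n => a n ^ 2 - x * a n * b n + b n ^ 2
  have hq : ∀ n, q n = q 0 := fun n => by
    induction n with
    | zero => rfl
    | succ n ih =>
      rw [← ih]
      simp only [q, (hstep n).1, (hstep n).2]
      ring
  obtain ⟨hx1, hx2⟩ := abs_le.1 h
  have hw := norm_nonneg w
  have h0 : |a 0| ≤ ‖w‖ ∧ |b 0| ≤ ‖w‖ := by
    simp only [a, b, pow_zero, one_apply_eq_self]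
    exact ⟨abs_le_norm w 0, abs_le_norm w 1⟩
  have hq0 : q 0 ≤ (2 * ‖w‖) ^ 2 := by
    have e3 : |x * a 0 * b 0| ≤ 2 * ‖w‖ * ‖w‖ := by
      rw [abs_mul, abs_mul]
      exact mul_le_mul (mul_le_mul h h0.1 (abs_nonneg _) zero_le_two) h0.2 (abs_nonneg _)
        (by positivity)
    have e1 := pow_le_pow_left₀ (abs_nonneg _) h0.1 2
    have e2 := pow_le_pow_left₀ (abs_nonneg _) h0.2 2
    rw [sq_abs] at e1 e2
    simp only [q]
    nlinarith [(abs_le.1 e3).1]
  have hinc : ∀ n, |a n| ≤ |b n| + 2 * ‖w‖ := fun n => by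
    have hd : (a n - x / 2 * b n) ^ 2 ≤ (2 * ‖w‖) ^ 2 := by
      have : q n = (a n - x / 2 * b n) ^ 2 + (1 - x ^ 2 / 4) * b n ^ 2 := by simp only [q]; ring
      have hx : 0 ≤ (1 - x ^ 2 / 4) * b n ^ 2 := mul_nonneg (by nlinarith) (sq_nonneg _)
      linarith [hq n]
    have h1 : |a n - x / 2 * b n| ≤ 2 * ‖w‖ := abs_le_of_sq_le_sq hd (by positivity)
    have h2 : |x / 2 * b n| ≤ |b n| := by
      rw [abs_mul]
      refine mul_le_of_le_one_left (abs_nonneg _) ?_
      rw [abs_div, abs_two]
      linarith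
    linarith [abs_sub_abs_le_abs_sub (a n) (x / 2 * b n)]
  have hab : ∀ n : ℕ, |a n| ≤ (2 * n + 1) * ‖w‖ ∧ |b n| ≤ (2 * n + 1) * ‖w‖ := fun n => by
    induction n with
    | zero => simpa using h0
    | succ n ih =>
      have h1 := hinc (n + 1)
      rw [(hstep n).2] at h1
      push_cast
      refine ⟨by nlinarith [ih.1], ?_⟩
      rw [(hstep n).2]
      nlinarith [ih.1]
  refine (norm_le_abs_add _).trans ?_
  obtain ⟨h1, h2⟩ := hab k
  show |a k| + |b k| ≤ _
  nlinarith

theorem tendsto_log_transfer_pow {v : ℝ} (h : |e - v| ≤ 2) :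
    Tendsto (fun k : ℕ => Real.log ‖transfer e v ^ k‖ / k) atTop (𝓝 0) := by
  have hlim : Tendsto (fun k : ℕ => Real.log (4 * (k : ℝ) + 4) / k) atTop (𝓝 0) := by
    refine ((Real.tendsto_pow_log_div_mul_add_atTop (1 / 4) (-1) 1 (by norm_num)).comp
      (tendsto_atTop_add_const_right _ 4
        ((tendsto_natCast_atTop_atTop (R := ℝ)).const_mul_atTop four_pos))).congr fun k => ?_
    simp only [Function.comp_apply, pow_one]
    congr 1
    ring
  have hU : ∀ k : ℕ, transfer e v ^ k ∈ unitDet Plane := fun k => by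
    induction k with
    | zero => exact one_mem_unitDet
    | succ k ih =>
      rw [pow_succ]
      exact mul_mem_unitDet ih (transfer_mem_unitDet e v)
  exact squeeze_zero (fun k => div_nonneg (Real.log_nonneg (one_le_norm (hU k))) k.cast_nonneg)
    (fun k => div_le_div_of_nonneg_right (Real.log_le_log
      (one_pos.trans_le (one_le_norm (hU k))) (norm_transfer_pow_le h k)) k.cast_nonneg) hlim

end FA.AndersonModel
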